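import Mathlib

/-!
# Row LT, tower T1, sub-leaf T1.20 (helper619): the abstract Fujisaki lemma

OFF-MAIN.  Mathlib only, no definitions of automorphic objects.

`V` a commutative topological ring, locally compact, Hausdorff, second countable; `Λ` an
additive subgroup which meets every compact set in a finite set, is closed under multiplication
and whose nonzero elements are invertible with inverse in `Λ` (a discrete subfield);
`F` a compact set with `V = Λ + F`; `h` a unit of `V` whose module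
(`MeasureTheory.distribHaarChar V h`) is `< 1`.  Then

  `Vˣ = h^ℤ · Λˣ · (compact)`      (`fujisaki_ray619`).

This is the argument of Weil, *Basic Number Theory* IV §4 Thm 6 / Cassels–Fröhlich II §16
(Fujisaki's lemma) for an arbitrary `V`; it is applied in `EllipticCompact.lean` to
`V = 𝔸_K[γ]`, `Λ = K[γ]`, `h` = the scalar `1/2` at the infinite places.
-/

set_option autoImplicit false

namespace Fermat.Agent.LT.T1.H619

open MeasureTheory Set
open scoped NNReal ENNReal Pointwise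

section Abs

variable {V : Type*} [CommRing V] [TopologicalSpace V] [IsTopologicalRing V]
  [LocallyCompactSpace V] [T2Space V] [SecondCountableTopology V]
  [MeasurableSpace V] [BorelSpace V]

omit [CommRing V] [IsTopologicalRing V] [T2Space V] [MeasurableSpace V] [BorelSpace V] in
/-- A subset of a σ-compact space meeting every compact set in a finite set is countable. -/
lemma countable_of_finite_inter619 (L : Set V)
    (hfin : ∀ Q : Set V, IsCompact Q → (Q ∩ L).Finite) : L.Countable := by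
  have h : L ⊆ ⋃ n : ℕ, compactCovering V n ∩ L := by
    intro x hx
    obtain ⟨n, hn⟩ := Set.mem_iUnion.mp
      ((iUnion_compactCovering V).symm ▸ Set.mem_univ x : x ∈ ⋃ n, compactCovering V n)
    exact Set.mem_iUnion.mpr ⟨n, hn, hx⟩
  exact (Set.countable_iUnion fun n => (hfin _ (isCompact_compactCovering V n)).countable).mono h

omit [LocallyCompactSpace V] [T2Space V] [SecondCountableTopology V] in
/-- Blichfeldt's principle for a covering set `F` (no disjointness of the translates of `F`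
is needed): a measurable set of measure `> μ F` contains two distinct points which are congruent
modulo `Λ`. -/
lemma blichfeldt_cover619 (μ : Measure V) [μ.IsAddHaarMeasure] (Λ : AddSubgroup V)
    [Countable Λ] {F S : Set V} (hFm : MeasurableSet F)
    (hcov : ∀ x : V, ∃ ξ ∈ Λ, x - ξ ∈ F) (hS : MeasurableSet S) (h : μ F < μ S) :
    ∃ s₁ ∈ S, ∃ s₂ ∈ S, s₁ - s₂ ∈ Λ ∧ s₁ - s₂ ≠ 0 := by
  by_contra hcon
  push Not at hcon
  -- `T ξ = F ∩ (S - ξ)`
  set T : Λ → Set V := fun ξ => F ∩ (fun x => (ξ : V) + x) ⁻¹' S with hT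
  have hTm : ∀ ξ, MeasurableSet (T ξ) := fun ξ =>
    hFm.inter ((measurable_const_add (ξ : V)) hS)
  have hTd : Pairwise (Function.onFun Disjoint T) := by
    intro ξ η hne
    rw [Function.onFun, Set.disjoint_left]
    rintro x ⟨-, hxξ⟩ ⟨-, hxη⟩
    have h1 : ((ξ : V) + x) - ((η : V) + x) ∈ Λ := by
      have : ((ξ : V) + x) - ((η : V) + x) = (ξ : V) - (η : V) := by ring
      rw [this]; exact Λ.sub_mem ξ.2 η.2
    have h2 := hcon _ hxξ _ hxη h1
    have h3 : (ξ : V) = (η : V) := by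
      have : ((ξ : V) + x) - ((η : V) + x) = (ξ : V) - (η : V) := by ring
      rw [this, sub_eq_zero] at h2; exact h2
    exact hne (Subtype.ext h3)
  have hsum : ∑' ξ, μ (T ξ) ≤ μ F := by
    rw [← measure_iUnion hTd hTm]
    exact measure_mono (Set.iUnion_subset fun ξ => Set.inter_subset_left)
  have hScov : S ⊆ ⋃ ξ : Λ, (fun x => -(ξ : V) + x) ⁻¹' T ξ := by
    intro s hs
    obtain ⟨ξ, hξ, hF⟩ := hcov s
    refine Set.mem_iUnion.mpr ⟨⟨ξ, hξ⟩, ?_⟩
    refine ⟨?_, ?_⟩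
    · change -ξ + s ∈ F
      rwa [neg_add_eq_sub]
    · change ξ + (-ξ + s) ∈ S
      rwa [add_neg_cancel_left]
  have hle : μ S ≤ ∑' ξ, μ (T ξ) := by
    calc μ S ≤ μ (⋃ ξ : Λ, (fun x => -(ξ : V) + x) ⁻¹' T ξ) := measure_mono hScov
      _ ≤ ∑' ξ : Λ, μ ((fun x => -(ξ : V) + x) ⁻¹' T ξ) := measure_iUnion_le _
      _ = ∑' ξ, μ (T ξ) := by
          congr 1; funext ξ
          exact measure_preimage_add μ (-(ξ : V)) (T ξ)
  exact absurd (hle.trans hsum) (not_le.mpr h)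

/-- Blichfeldt step: a unit `t` with `μ F < mod(t) μ Z` moves the difference of two points of
`Z` into `Λ \ {0}`. -/
lemma exists_mul_mem_lattice619 (μ : Measure V) [μ.IsAddHaarMeasure] (Λ : AddSubgroup V)
    [Countable Λ] {F Z : Set V} (hFm : MeasurableSet F)
    (hcov : ∀ x : V, ∃ ξ ∈ Λ, x - ξ ∈ F) (hZ : IsCompact Z) (t : Vˣ)
    (hFZ : μ F < distribHaarChar V t * μ Z) :
    ∃ z₁ ∈ Z, ∃ z₂ ∈ Z, (t : V) * (z₁ - z₂) ∈ Λ ∧ (t : V) * (z₁ - z₂) ≠ 0 := by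
  have hμ : μ (t • Z) = distribHaarChar V t * μ Z := (distribHaarChar_mul μ t Z).symm
  have hmeas : MeasurableSet (t • Z) := (hZ.smul t).measurableSet
  obtain ⟨s₁, hs₁, s₂, hs₂, hΛ, h0⟩ :=
    blichfeldt_cover619 μ Λ hFm hcov hmeas (by rwa [hμ])
  obtain ⟨z₁, hz₁, rfl⟩ := Set.mem_smul_set.mp hs₁
  obtain ⟨z₂, hz₂, rfl⟩ := Set.mem_smul_set.mp hs₂
  have key : (t : V) * (z₁ - z₂) = t • z₁ - t • z₂ := by
    rw [mul_sub, Units.smul_def, Units.smul_def, smul_eq_mul, smul_eq_mul]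
  exact ⟨z₁, hz₁, z₂, hz₂, by rw [key]; exact hΛ, by rw [key]; exact h0⟩

/-- **Fujisaki's lemma, abstract form, for units of bounded module.** -/
theorem fujisaki_bdd619 (μ : Measure V) [μ.IsAddHaarMeasure] (Λ : AddSubgroup V)
    (hfin : ∀ Q : Set V, IsCompact Q → (Q ∩ (Λ : Set V)).Finite)
    (hmul : ∀ ξ ∈ Λ, ∀ η ∈ Λ, ξ * η ∈ Λ)
    (hinv : ∀ ξ ∈ Λ, ξ ≠ 0 → ∃ η ∈ Λ, ξ * η = 1)
    {F Z : Set V} (hFm : MeasurableSet F) (hcov : ∀ x : V, ∃ ξ ∈ Λ, x - ξ ∈ F)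
    (hZ : IsCompact Z) (m : ℝ≥0) (hFZ : μ F < m * μ Z) :
    ∃ C : Set Vˣ, IsCompact C ∧ ∀ t : Vˣ, m ≤ distribHaarChar V t →
      m ≤ distribHaarChar V t⁻¹ →
      ∃ ξ : Vˣ, (ξ : V) ∈ Λ ∧ ((ξ⁻¹ : Vˣ) : V) ∈ Λ ∧ ξ⁻¹ * t ∈ C := by
  classical
  have : Countable Λ := (countable_of_finite_inter619 (Λ : Set V) hfin).to_subtype
  -- the compact sets
  set W : Set V := (fun p : V × V => p.1 - p.2) '' (Z ×ˢ Z) with hWdef
  have hW : IsCompact W := (hZ.prod hZ).image (continuous_fst.sub continuous_snd)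
  set WW : Set V := (fun p : V × V => p.1 * p.2) '' (W ×ˢ W) with hWWdef
  have hWW : IsCompact WW := (hW.prod hW).image (continuous_fst.mul continuous_snd)
  have hΦ : (WW ∩ (Λ : Set V)).Finite := hfin WW hWW
  set M : Set V := ⋃ φ ∈ hΦ.toFinset, (fun w : V => Ring.inverse φ * w) '' W with hMdef
  have hM : IsCompact M :=
    hΦ.toFinset.isCompact_biUnion fun φ _ => hW.image (continuous_const.mul continuous_id)
  set C : Set Vˣ := Units.embedProduct V ⁻¹' (M ×ˢ (MulOpposite.op '' W)) with hCdef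
  have hC : IsCompact C :=
    Units.isClosedEmbedding_embedProduct.isCompact_preimage
      (hM.prod (hW.image MulOpposite.continuous_op))
  refine ⟨C, hC, fun t ht ht' => ?_⟩
  have hlt : ∀ s : Vˣ, m ≤ distribHaarChar V s → μ F < distribHaarChar V s * μ Z := fun s hs =>
    hFZ.trans_le (mul_le_mul_left (ENNReal.coe_le_coe.mpr hs) _)
  obtain ⟨z₁, hz₁, z₂, hz₂, hξΛ, hξ0⟩ :=
    exists_mul_mem_lattice619 μ Λ hFm hcov hZ t (hlt t ht)
  obtain ⟨z₃, hz₃, z₄, hz₄, hηΛ, hη0⟩ :=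
    exists_mul_mem_lattice619 μ Λ hFm hcov hZ t⁻¹ (hlt t⁻¹ ht')
  set w : V := z₁ - z₂ with hw
  set w' : V := z₃ - z₄ with hw'
  have hwW : w ∈ W := ⟨(z₁, z₂), ⟨hz₁, hz₂⟩, rfl⟩
  have hw'W : w' ∈ W := ⟨(z₃, z₄), ⟨hz₃, hz₄⟩, rfl⟩
  obtain ⟨ξi, hξiΛ, hξi⟩ := hinv _ hξΛ hξ0
  obtain ⟨ηi, hηiΛ, hηi⟩ := hinv _ hηΛ hη0
  -- the unit ξ
  let ξ : Vˣ := ⟨(t : V) * w, ξi, hξi, by rw [mul_comm]; exact hξi⟩
  have hξval : (ξ : V) = (t : V) * w := rfl
  have hξinv : ((ξ⁻¹ : Vˣ) : V) = ξi := rfl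
  -- the element φ = ξ η = w w'
  have hφ : ((t : V) * w) * (((t⁻¹ : Vˣ) : V) * w') = w * w' := by
    have : (t : V) * ((t⁻¹ : Vˣ) : V) = 1 := by simp
    calc ((t : V) * w) * (((t⁻¹ : Vˣ) : V) * w')
        = ((t : V) * ((t⁻¹ : Vˣ) : V)) * (w * w') := by ring
      _ = w * w' := by rw [this, one_mul]
  have hφΛ : w * w' ∈ (Λ : Set V) := by
    rw [← hφ]; exact hmul _ hξΛ _ hηΛ
  have hφWW : w * w' ∈ WW := ⟨(w, w'), ⟨hwW, hw'W⟩, rfl⟩
  have hφmem : w * w' ∈ hΦ.toFinset := by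
    rw [Set.Finite.mem_toFinset]; exact ⟨hφWW, hφΛ⟩
  -- the inverse of φ
  have hφinv : (w * w') * (ξi * ηi) = 1 := by
    rw [← hφ]
    calc ((t : V) * w) * (((t⁻¹ : Vˣ) : V) * w') * (ξi * ηi)
        = (((t : V) * w) * ξi) * ((((t⁻¹ : Vˣ) : V) * w') * ηi) := by ring
      _ = 1 := by rw [hξi, hηi, one_mul]
  have hRinv : Ring.inverse (w * w') = ξi * ηi := by
    have hu : IsUnit (w * w') := ⟨⟨w * w', ξi * ηi, hφinv, by rw [mul_comm]; exact hφinv⟩, rfl⟩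
    have h1 : Ring.inverse (w * w') * (w * w') = 1 := Ring.inverse_mul_cancel _ hu
    calc Ring.inverse (w * w') = Ring.inverse (w * w') * ((w * w') * (ξi * ηi)) := by
          rw [hφinv, mul_one]
      _ = (Ring.inverse (w * w') * (w * w')) * (ξi * ηi) := by ring
      _ = ξi * ηi := by rw [h1, one_mul]
  have hηw' : ηi * w' = (t : V) := by
    have h1 : (t : V) * ((t⁻¹ : Vˣ) : V) = 1 := by simp
    calc ηi * w' = ((t : V) * ((t⁻¹ : Vˣ) : V)) * (ηi * w') := by rw [h1, one_mul]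
      _ = (t : V) * ((((t⁻¹ : Vˣ) : V) * w') * ηi) := by ring
      _ = (t : V) := by rw [hηi, mul_one]
  refine ⟨ξ, hξΛ, by rw [hξinv]; exact hξiΛ, ?_⟩
  -- membership in C
  rw [hCdef, Set.mem_preimage]
  refine ⟨?_, ?_⟩
  · -- first component: ξ⁻¹ t ∈ M
    rw [hMdef]
    refine Set.mem_biUnion hφmem ⟨w', hw'W, ?_⟩
    change Ring.inverse (w * w') * w' = ((ξ⁻¹ * t : Vˣ) : V)
    rw [hRinv, Units.val_mul, hξinv, mul_assoc, hηw']
  · -- second component: (ξ⁻¹ t)⁻¹ = w ∈ W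
    refine ⟨w, hwW, ?_⟩
    change MulOpposite.op w = MulOpposite.op (((ξ⁻¹ * t : Vˣ)⁻¹ : Vˣ) : V)
    congr 1
    have h1 : ((t⁻¹ : Vˣ) : V) * (t : V) = 1 := by simp
    rw [mul_inv_rev, inv_inv, Units.val_mul, hξval, ← mul_assoc, h1, one_mul]

omit [T2Space V] [SecondCountableTopology V] in
/-- A unit `h` which maps an open relatively compact nonempty set `U` into two disjoint
translates inside `U` has module `< 1`. -/
lemma distribHaarChar_lt_one619 (h : Vˣ) {U N : Set V} (hUo : IsOpen U) (hUne : U.Nonempty)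
    (hN : IsCompact N) (hUN : U ⊆ N) (v₁ v₂ : V)
    (h₁ : ∀ x ∈ U, v₁ + (h : V) * x ∈ U) (h₂ : ∀ x ∈ U, v₂ + (h : V) * x ∈ U)
    (hd : ∀ x ∈ U, ∀ y ∈ U, v₁ + (h : V) * x ≠ v₂ + (h : V) * y) :
    distribHaarChar V h < 1 := by
  set μ : Measure V := Measure.addHaar with hμdef
  have hpos : 0 < μ U := hUo.measure_pos μ hUne
  have hfin : μ U < ⊤ := (measure_mono hUN).trans_lt hN.measure_lt_top
  have hhU : IsOpen (h • U) := hUo.smul h
  set A₁ : Set V := (fun x => -v₁ + x) ⁻¹' (h • U) with hA₁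
  set A₂ : Set V := (fun x => -v₂ + x) ⁻¹' (h • U) with hA₂
  have hA₁m : MeasurableSet A₁ :=
    (hhU.preimage (continuous_const.add continuous_id)).measurableSet
  have hA₂m : MeasurableSet A₂ :=
    (hhU.preimage (continuous_const.add continuous_id)).measurableSet
  have hμA₁ : μ A₁ = distribHaarChar V h * μ U := by
    rw [hA₁, measure_preimage_add μ (-v₁) (h • U), distribHaarChar_mul μ h U]
  have hμA₂ : μ A₂ = distribHaarChar V h * μ U := by
    rw [hA₂, measure_preimage_add μ (-v₂) (h • U), distribHaarChar_mul μ h U]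
  have hsub : ∀ (v : V), (∀ x ∈ U, v + (h : V) * x ∈ U) →
      (fun x => -v + x) ⁻¹' (h • U) ⊆ U := by
    intro v hv y hy
    obtain ⟨x, hx, hxy⟩ := Set.mem_smul_set.mp hy
    have : y = v + (h : V) * x := by
      have h3 : h • x = -v + y := hxy
      rw [Units.smul_def, smul_eq_mul] at h3
      rw [h3]; ring
    rw [this]; exact hv x hx
  have hdis : Disjoint A₁ A₂ := by
    rw [Set.disjoint_left]
    intro y hy₁ hy₂
    obtain ⟨x₁, hx₁, e₁⟩ := Set.mem_smul_set.mp hy₁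
    obtain ⟨x₂, hx₂, e₂⟩ := Set.mem_smul_set.mp hy₂
    refine hd x₁ hx₁ x₂ hx₂ ?_
    have e₁' : (h : V) * x₁ = -v₁ + y := by
      have := e₁; rwa [Units.smul_def, smul_eq_mul] at this
    have e₂' : (h : V) * x₂ = -v₂ + y := by
      have := e₂; rwa [Units.smul_def, smul_eq_mul] at this
    rw [e₁', e₂']; ring
  have hle : μ A₁ + μ A₂ ≤ μ U := by
    rw [← measure_union hdis hA₂m]
    exact measure_mono (Set.union_subset (hsub v₁ h₁) (hsub v₂ h₂))
  rw [hμA₁, hμA₂] at hle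
  by_contra hcon
  rw [not_lt] at hcon
  have h1 : (1 : ℝ≥0∞) ≤ (distribHaarChar V h : ℝ≥0∞) := by exact_mod_cast hcon
  have h2 : μ U + μ U ≤ μ U := by
    calc μ U + μ U = 1 * μ U + 1 * μ U := by rw [one_mul]
      _ ≤ distribHaarChar V h * μ U + distribHaarChar V h * μ U := by gcongr
      _ ≤ μ U := hle
  have h3 : μ U + μ U ≤ μ U + 0 := by rwa [add_zero]
  have h4 := (ENNReal.add_le_add_iff_left hfin.ne).mp h3
  exact absurd h4 (not_le.mpr hpos)

/-- **Fujisaki's lemma with a ray**: `Vˣ = h^ℤ · Λˣ · (compact)`. -/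
theorem fujisaki_ray619 (Λ : AddSubgroup V)
    (hfin : ∀ Q : Set V, IsCompact Q → (Q ∩ (Λ : Set V)).Finite)
    (hmul : ∀ ξ ∈ Λ, ∀ η ∈ Λ, ξ * η ∈ Λ)
    (hinv : ∀ ξ ∈ Λ, ξ ≠ 0 → ∃ η ∈ Λ, ξ * η = 1)
    {F : Set V} (hF : IsCompact F) (hcov : ∀ x : V, ∃ ξ ∈ Λ, x - ξ ∈ F)
    (h : Vˣ) (hh : distribHaarChar V h < 1) :
    ∃ C : Set Vˣ, IsCompact C ∧ ∀ u : Vˣ, ∃ (k : ℤ) (ξ : Vˣ),
      (ξ : V) ∈ Λ ∧ ((ξ⁻¹ : Vˣ) : V) ∈ Λ ∧ (h ^ k * ξ)⁻¹ * u ∈ C := by
  set μ : Measure V := Measure.addHaar with hμdef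
  set m : ℝ≥0 := distribHaarChar V h with hm
  have hm0 : m ≠ 0 := by
    intro h0
    have := map_mul (distribHaarChar V) h h⁻¹
    rw [mul_inv_cancel, map_one, ← hm, h0, zero_mul] at this
    exact one_ne_zero this
  -- enlarge `F` to have positive measure
  obtain ⟨N, hNc, hN0⟩ := exists_compact_mem_nhds (0 : V)
  set F' : Set V := F ∪ N with hF'
  have hF'c : IsCompact F' := hF.union hNc
  have hF'cov : ∀ x : V, ∃ ξ ∈ Λ, x - ξ ∈ F' := fun x => by
    obtain ⟨ξ, hξ, hx⟩ := hcov x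
    exact ⟨ξ, hξ, Or.inl hx⟩
  have hF'pos : 0 < μ F' :=
    (Measure.measure_pos_of_mem_nhds μ hN0).trans_le (measure_mono Set.subset_union_right)
  have hF'fin : μ F' < ⊤ := hF'c.measure_lt_top
  -- the big compact set
  set Z : Set V := (h⁻¹ * h⁻¹) • F' with hZ
  have hZc : IsCompact Z := hF'c.smul _
  have hμZ : μ Z = (m⁻¹ * m⁻¹ : ℝ≥0) * μ F' := by
    rw [hZ, ← distribHaarChar_mul μ (h⁻¹ * h⁻¹) F', map_mul, map_inv]
  have hFZ : μ F' < m * μ Z := by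
    rw [hμZ, ← mul_assoc, ← ENNReal.coe_mul]
    have e : m * (m⁻¹ * m⁻¹) = m⁻¹ := by
      rw [← mul_assoc, mul_inv_cancel₀ hm0, one_mul]
    rw [e]
    have h1 : (1 : ℝ≥0) < m⁻¹ := by
      rw [one_lt_inv₀ (pos_iff_ne_zero.mpr hm0)]; exact hh
    calc μ F' = (1 : ℝ≥0) * μ F' := by rw [ENNReal.coe_one, one_mul]
      _ < (m⁻¹ : ℝ≥0) * μ F' :=
          ENNReal.mul_lt_mul_left hF'pos.ne' hF'fin.ne (ENNReal.coe_lt_coe.mpr h1)
  obtain ⟨C, hC, hCt⟩ :=
    fujisaki_bdd619 μ Λ hfin hmul hinv hF'c.measurableSet hF'cov hZc m hFZ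
  refine ⟨C, hC, fun u => ?_⟩
  set r : ℝ≥0 := distribHaarChar V u with hr
  have hr0 : r ≠ 0 := by
    intro h0
    have := map_mul (distribHaarChar V) u u⁻¹
    rw [mul_inv_cancel, map_one, ← hr, h0, zero_mul] at this
    exact one_ne_zero this
  have hy : (1 : ℝ≥0) < m⁻¹ := by
    rw [one_lt_inv₀ (pos_iff_ne_zero.mpr hm0)]; exact hh
  obtain ⟨n, hn₁, hn₂⟩ := NNReal.exists_mem_Ico_zpow hr0 hy
  -- `t = h^n u` has module in `[1, m⁻¹)`
  set t : Vˣ := h ^ n * u with ht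
  have hmodt : distribHaarChar V t = m ^ n * r := by
    rw [ht, map_mul, map_zpow]
  have hmn : m ^ n * (m⁻¹) ^ n = 1 := by
    rw [← mul_zpow, mul_inv_cancel₀ hm0, one_zpow]
  have hmn0 : m ^ n ≠ 0 := zpow_ne_zero n hm0
  have h1t : 1 ≤ distribHaarChar V t := by
    rw [hmodt, ← hmn]
    exact mul_le_mul_right hn₁ _
  have ht2 : distribHaarChar V t < m⁻¹ := by
    rw [hmodt]
    have : m ^ n * r < m ^ n * (m⁻¹) ^ (n + 1) :=
      mul_lt_mul_of_pos_left hn₂ (pos_iff_ne_zero.mpr hmn0)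
    rwa [zpow_add₀ (inv_ne_zero hm0), ← mul_assoc, hmn, one_mul, zpow_one] at this
  have hm1 : m ≤ 1 := hh.le
  have ht0 : distribHaarChar V t ≠ 0 := by
    intro h0; rw [h0] at h1t; exact absurd h1t (by simp)
  obtain ⟨ξ, hξ, hξi, hmem⟩ := hCt t (hm1.trans h1t) (by
    rw [map_inv]
    rw [← inv_inv m]
    exact inv_anti₀ (pos_iff_ne_zero.mpr ht0) ht2.le)
  refine ⟨-n, ξ, hξ, hξi, ?_⟩
  have e : (h ^ (-n) * ξ)⁻¹ * u = ξ⁻¹ * t := by
    rw [ht, mul_inv_rev, zpow_neg, inv_inv, mul_assoc]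
  rw [e]; exact hmem

end Abs

end Fermat.Agent.LT.T1.H619
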