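import Mathlib

/-!
# Row LT, tower T1, sub-leaf T1.20 (helper619): the algebra `R[γ]` of a `2 × 2` matrix

OFF-MAIN.  Mathlib only.

For a commutative ring `R` and `γ ∈ M₂(R)`, `QA619 R γ` is `R × R` with the multiplication of
`R[X]/(X² - tr(γ) X + det(γ))` (`(p, q) ↔ p + q γ`), the product topology, and the ring
homomorphism `emb619 γ : QA619 R γ →+* M₂(R)`, `(p, q) ↦ p + q γ`.

* `exists_emb619_eq_of_commute` : if `γ₁₀` is invertible, every matrix commuting with `γ` is in
  the image of `emb619 γ`;
* `emb619_injective` : if `γ₁₀` is invertible, `emb619 γ` is injective;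
* `exists_mul_eq_one619` : over a field, if the characteristic polynomial of `γ` is irreducible,
  every nonzero element of `QA619 K γ` is invertible;
* `map619 f` : base change along `f : R →+* S`.
-/

set_option autoImplicit false

namespace Fermat.Agent.LT.T1.H619

open Matrix

/-- `R[γ] = R ⊕ R γ` as a type: pairs `(p, q) ↔ p + q γ`. -/
def QA619 (R : Type*) [CommRing R] (_γ : Matrix (Fin 2) (Fin 2) R) : Type _ := R × R

section Ring

variable {R : Type*} [CommRing R] (γ : Matrix (Fin 2) (Fin 2) R)

instance instAddCommGroupQA619 : AddCommGroup (QA619 R γ) :=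
  inferInstanceAs (AddCommGroup (R × R))

instance instMulQA619 : Mul (QA619 R γ) :=
  ⟨fun x y => ((x.1 * y.1 - x.2 * y.2 * γ.det : R),
    (x.1 * y.2 + x.2 * y.1 + x.2 * y.2 * γ.trace : R))⟩

instance instOneQA619 : One (QA619 R γ) := ⟨((1 : R), (0 : R))⟩

@[ext] lemma QA619.ext {x y : QA619 R γ} (h1 : x.1 = y.1) (h2 : x.2 = y.2) : x = y :=
  Prod.ext h1 h2

@[simp] lemma QA619.mul_fst (x y : QA619 R γ) :
    (x * y).1 = x.1 * y.1 - x.2 * y.2 * γ.det := rfl
@[simp] lemma QA619.mul_snd (x y : QA619 R γ) :
    (x * y).2 = x.1 * y.2 + x.2 * y.1 + x.2 * y.2 * γ.trace := rfl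
@[simp] lemma QA619.one_fst : (1 : QA619 R γ).1 = 1 := rfl
@[simp] lemma QA619.one_snd : (1 : QA619 R γ).2 = 0 := rfl
@[simp] lemma QA619.zero_fst : (0 : QA619 R γ).1 = 0 := rfl
@[simp] lemma QA619.zero_snd : (0 : QA619 R γ).2 = 0 := rfl
@[simp] lemma QA619.add_fst (x y : QA619 R γ) : (x + y).1 = x.1 + y.1 := rfl
@[simp] lemma QA619.add_snd (x y : QA619 R γ) : (x + y).2 = x.2 + y.2 := rfl
@[simp] lemma QA619.sub_fst (x y : QA619 R γ) : (x - y).1 = x.1 - y.1 := rfl
@[simp] lemma QA619.sub_snd (x y : QA619 R γ) : (x - y).2 = x.2 - y.2 := rfl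
@[simp] lemma QA619.neg_fst (x : QA619 R γ) : (-x).1 = -x.1 := rfl
@[simp] lemma QA619.neg_snd (x : QA619 R γ) : (-x).2 = -x.2 := rfl

instance instCommRingQA619 : CommRing (QA619 R γ) :=
  { instAddCommGroupQA619 γ with
    mul := (· * ·)
    one := 1
    left_distrib := fun x y z => by ext <;> simp <;> ring
    right_distrib := fun x y z => by ext <;> simp <;> ring
    zero_mul := fun x => by ext <;> simp
    mul_zero := fun x => by ext <;> simp
    mul_assoc := fun x y z => by ext <;> simp <;> ring
    one_mul := fun x => by ext <;> simp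
    mul_one := fun x => by ext <;> simp
    mul_comm := fun x y => by ext <;> simp <;> ring }

/-- The scalars `R → R[γ]`. -/
def scal619 : R →+* QA619 R γ where
  toFun c := ((c, 0) : R × R)
  map_one' := rfl
  map_mul' x y := by
    refine Prod.ext ?_ ?_
    · change x * y = x * y - 0 * 0 * γ.det
      ring
    · change (0 : R) = x * 0 + 0 * y + 0 * 0 * γ.trace
      ring
  map_zero' := rfl
  map_add' x y := by
    refine Prod.ext ?_ ?_
    · rfl
    · change (0 : R) = 0 + 0
      ring

@[simp] lemma scal619_fst (c : R) : (scal619 γ c).1 = c := rfl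
@[simp] lemma scal619_snd (c : R) : (scal619 γ c).2 = 0 := rfl

/-- `(p, q) ↦ p + q γ`. -/
def emb619 : QA619 R γ →+* Matrix (Fin 2) (Fin 2) R where
  toFun x := !![x.1 + x.2 * γ 0 0, x.2 * γ 0 1; x.2 * γ 1 0, x.1 + x.2 * γ 1 1]
  map_one' := by
    ext i j; fin_cases i <;> fin_cases j <;> simp
  map_mul' x y := by
    ext i j
    fin_cases i <;> fin_cases j <;>
      simp [Matrix.mul_apply, Fin.sum_univ_two, Matrix.det_fin_two, Matrix.trace_fin_two] <;>
      ring
  map_zero' := by
    ext i j; fin_cases i <;> fin_cases j <;> simp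
  map_add' x y := by
    ext i j; fin_cases i <;> fin_cases j <;> simp <;> ring

lemma emb619_apply (x : QA619 R γ) :
    emb619 γ x = !![x.1 + x.2 * γ 0 0, x.2 * γ 0 1; x.2 * γ 1 0, x.1 + x.2 * γ 1 1] := rfl

@[simp] lemma emb619_apply_zero_zero (x : QA619 R γ) :
    emb619 γ x 0 0 = x.1 + x.2 * γ 0 0 := rfl
@[simp] lemma emb619_apply_zero_one (x : QA619 R γ) :
    emb619 γ x 0 1 = x.2 * γ 0 1 := rfl
@[simp] lemma emb619_apply_one_zero (x : QA619 R γ) :
    emb619 γ x 1 0 = x.2 * γ 1 0 := rfl
@[simp] lemma emb619_apply_one_one (x : QA619 R γ) :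
    emb619 γ x 1 1 = x.1 + x.2 * γ 1 1 := rfl

lemma emb619_scal (c : R) : emb619 γ (scal619 γ c) = Matrix.diagonal fun _ => c := by
  ext i j; fin_cases i <;> fin_cases j <;> simp

/-- The image of `emb619` commutes with `γ`. -/
lemma emb619_mul_comm (x : QA619 R γ) : emb619 γ x * γ = γ * emb619 γ x := by
  ext i j
  fin_cases i <;> fin_cases j <;>
    simp [emb619_apply, Matrix.mul_apply, Fin.sum_univ_two] <;> ring

/-- If `γ₁₀` is invertible, the centraliser of `γ` in `M₂(R)` is the image of `emb619 γ`. -/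
lemma exists_emb619_eq_of_commute {c' : R} (hc : γ 1 0 * c' = 1)
    (X : Matrix (Fin 2) (Fin 2) R) (hX : X * γ = γ * X) :
    ∃ x : QA619 R γ, emb619 γ x = X := by
  have h00 := congrFun (congrFun hX 0) 0
  have h10 := congrFun (congrFun hX 1) 0
  simp only [Matrix.mul_apply, Fin.sum_univ_two] at h00 h10
  refine ⟨((X 0 0 - X 1 0 * c' * γ 0 0, X 1 0 * c') : R × R), ?_⟩
  ext i j
  fin_cases i <;> fin_cases j
  · change (X 0 0 - X 1 0 * c' * γ 0 0) + X 1 0 * c' * γ 0 0 = X 0 0
    ring
  · change X 1 0 * c' * γ 0 1 = X 0 1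
    linear_combination (X 0 1) * hc - c' * h00
  · change X 1 0 * c' * γ 1 0 = X 1 0
    linear_combination (X 1 0) * hc
  · change (X 0 0 - X 1 0 * c' * γ 0 0) + X 1 0 * c' * γ 1 1 = X 1 1
    linear_combination (X 1 1 - X 0 0) * hc - c' * h10

/-- If `γ₁₀` is invertible, `emb619 γ` is injective. -/
lemma emb619_injective {c' : R} (hc : γ 1 0 * c' = 1) : Function.Injective (emb619 γ) := by
  rw [injective_iff_map_eq_zero]
  intro x hx
  have h10 : x.2 * γ 1 0 = 0 := by
    have := congrFun (congrFun hx 1) 0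
    simpa using this
  have h00 : x.1 + x.2 * γ 0 0 = 0 := by
    have := congrFun (congrFun hx 0) 0
    simpa using this
  have h2 : x.2 = 0 := by linear_combination c' * h10 - x.2 * hc
  have h1 : x.1 = 0 := by rw [h2] at h00; simpa using h00
  ext
  · exact h1
  · exact h2

end Ring

section Map

variable {R S : Type*} [CommRing R] [CommRing S] (f : R →+* S) (γ : Matrix (Fin 2) (Fin 2) R)

/-- Base change `R[γ] → S[f(γ)]`. -/
def map619 : QA619 R γ →+* QA619 S (γ.map f) where
  toFun x := ((f x.1, f x.2) : S × S)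
  map_one' := by
    refine Prod.ext ?_ ?_
    · change f 1 = 1
      exact map_one f
    · change f 0 = 0
      exact map_zero f
  map_mul' x y := by
    refine Prod.ext ?_ ?_
    · change f (x.1 * y.1 - x.2 * y.2 * γ.det) = f x.1 * f y.1 - f x.2 * f y.2 * (γ.map f).det
      simp [Matrix.det_fin_two]
    · change f (x.1 * y.2 + x.2 * y.1 + x.2 * y.2 * γ.trace)
        = f x.1 * f y.2 + f x.2 * f y.1 + f x.2 * f y.2 * (γ.map f).trace
      simp [Matrix.trace_fin_two]
  map_zero' := by
    refine Prod.ext ?_ ?_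
    · change f 0 = 0
      exact map_zero f
    · change f 0 = 0
      exact map_zero f
  map_add' x y := by
    refine Prod.ext ?_ ?_
    · change f (x.1 + y.1) = f x.1 + f y.1
      exact map_add f _ _
    · change f (x.2 + y.2) = f x.2 + f y.2
      exact map_add f _ _

@[simp] lemma map619_fst (x : QA619 R γ) : (map619 f γ x).1 = f x.1 := rfl
@[simp] lemma map619_snd (x : QA619 R γ) : (map619 f γ x).2 = f x.2 := rfl

lemma map619_injective (hf : Function.Injective f) : Function.Injective (map619 f γ) := by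
  intro x y h
  ext
  · exact hf (congrArg Prod.fst h)
  · exact hf (congrArg Prod.snd h)

lemma emb619_map619 (x : QA619 R γ) :
    emb619 (γ.map f) (map619 f γ x) = (emb619 γ x).map f := by
  ext i j
  fin_cases i <;> fin_cases j <;> simp [emb619_apply]

end Map

section Field

variable {K : Type*} [Field K] (γ : Matrix (Fin 2) (Fin 2) K)

/-- An irreducible characteristic polynomial of a `2 × 2` matrix has no root. -/
lemma charpoly_eval_ne_zero619 (hγ : Irreducible γ.charpoly) (x : K) :
    x ^ 2 - γ.trace * x + γ.det ≠ 0 := by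
  intro h
  have hroot : γ.charpoly.IsRoot x := by
    rw [Polynomial.IsRoot, Matrix.charpoly_fin_two]
    simpa using h
  have hdeg := Polynomial.degree_eq_one_of_irreducible_of_root hγ hroot
  rw [Matrix.charpoly_degree_eq_dim] at hdeg
  simp at hdeg

/-- The lower left entry of a `2 × 2` matrix with irreducible characteristic polynomial is
nonzero. -/
lemma apply_one_zero_ne_zero619 (hγ : Irreducible γ.charpoly) : γ 1 0 ≠ 0 := by
  intro h
  refine charpoly_eval_ne_zero619 γ hγ (γ 0 0) ?_
  rw [Matrix.det_fin_two, Matrix.trace_fin_two, h]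
  ring

/-- Over a field, `K[γ]` is a field when the characteristic polynomial is irreducible. -/
lemma exists_mul_eq_one619 (hγ : Irreducible γ.charpoly) (x : QA619 K γ) (hx : x ≠ 0) :
    ∃ y : QA619 K γ, x * y = 1 := by
  set N : K := x.1 ^ 2 + x.1 * x.2 * γ.trace + x.2 ^ 2 * γ.det with hN
  have hN0 : N ≠ 0 := by
    by_cases hq : x.2 = 0
    · have hp : x.1 ≠ 0 := fun hp => hx (QA619.ext γ hp hq)
      rw [hN, hq]
      simpa using hp
    · intro h0
      refine charpoly_eval_ne_zero619 γ hγ (-x.1 / x.2) ?_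
      field_simp
      rw [hN] at h0
      linear_combination h0
  refine ⟨(((x.1 + x.2 * γ.trace) / N, -x.2 / N) : K × K), ?_⟩
  ext
  · change x.1 * ((x.1 + x.2 * γ.trace) / N) - x.2 * (-x.2 / N) * γ.det = 1
    field_simp
    rw [hN]; ring
  · change x.1 * (-x.2 / N) + x.2 * ((x.1 + x.2 * γ.trace) / N) + x.2 * (-x.2 / N) * γ.trace = 0
    field_simp
    ring

end Field

section Topology

variable {R : Type*} [CommRing R] [TopologicalSpace R] (γ : Matrix (Fin 2) (Fin 2) R)

instance instTopologicalSpaceQA619 : TopologicalSpace (QA619 R γ) :=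
  inferInstanceAs (TopologicalSpace (R × R))

instance instIsTopologicalRingQA619 [IsTopologicalRing R] : IsTopologicalRing (QA619 R γ) where
  continuous_add := (inferInstance : ContinuousAdd (R × R)).continuous_add
  continuous_neg := (inferInstance : ContinuousNeg (R × R)).continuous_neg
  continuous_mul := by
    have h1 : Continuous fun p : (R × R) × (R × R) =>
        (p.1.1 * p.2.1 - p.1.2 * p.2.2 * γ.det : R) := by fun_prop
    have h2 : Continuous fun p : (R × R) × (R × R) =>
        (p.1.1 * p.2.2 + p.1.2 * p.2.1 + p.1.2 * p.2.2 * γ.trace : R) := by fun_prop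
    exact h1.prodMk h2

instance instLocallyCompactSpaceQA619 [LocallyCompactSpace R] :
    LocallyCompactSpace (QA619 R γ) :=
  inferInstanceAs (LocallyCompactSpace (R × R))

instance instT2SpaceQA619 [T2Space R] : T2Space (QA619 R γ) :=
  inferInstanceAs (T2Space (R × R))

instance instSecondCountableTopologyQA619 [SecondCountableTopology R] :
    SecondCountableTopology (QA619 R γ) :=
  inferInstanceAs (SecondCountableTopology (R × R))

lemma continuous_emb619 [IsTopologicalRing R] : Continuous (emb619 γ) := by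
  refine continuous_matrix fun i j => ?_
  have hfst : Continuous fun x : QA619 R γ => (x.1 : R) := continuous_fst
  have hsnd : Continuous fun x : QA619 R γ => (x.2 : R) := continuous_snd
  fin_cases i <;> fin_cases j
  · exact hfst.add (hsnd.mul continuous_const)
  · exact hsnd.mul continuous_const
  · exact hsnd.mul continuous_const
  · exact hfst.add (hsnd.mul continuous_const)

lemma continuous_scal619 : Continuous (scal619 γ) :=
  Continuous.prodMk continuous_id continuous_const

end Topology

end Fermat.Agent.LT.T1.H619
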