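import Mathlib
import Fermat.Agent.LT.T1.Spec
import Fermat.Agent.LT.T1.H619.FujisakiAbs
import Fermat.Agent.LT.T1.H619.QuadAlg

/-!
# Row LT, tower T1, sub-leaf T1.20 (helper619): the lattice `K[γ] ⊂ 𝔸_K[γ]`

OFF-MAIN.  For `γ ∈ M₂(K)` with irreducible characteristic polynomial:
`VA619 K γ = 𝔸_K[γ]` (`= 𝔸_K × 𝔸_K` as a topological group), `lat619 K γ = K[γ]`, and the
hypotheses of `fujisaki_ray619` which concern the lattice:

* `lat619_mul_mem`, `lat619_exists_inv` : `K[γ]` is a field;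
* `lat619_finite_inter` : `K[γ]` meets compact sets in finite sets (from `AdeleLatticeC`);
* `lat619_cover` : `𝔸_K[γ] = K[γ] + C × C` (from `AdeleLatticeC`).
-/

set_option autoImplicit false

open IsDedekindDomain NumberField MeasureTheory
open scoped MatrixGroups NNReal ENNReal Pointwise

noncomputable section

namespace Fermat.Agent.LT.T1.H619

open Fermat.Agent.LT.H556.A0 Fermat.Agent.LT.T1

variable (K : Type) [Field K] [NumberField K]

/-- `𝔸_K[γ]`. -/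
abbrev VA619 (γ : Matrix (Fin 2) (Fin 2) K) : Type :=
  QA619 (Adl K) (γ.map (algebraMap K (Adl K)))

/-- The lattice `K[γ] ⊂ 𝔸_K[γ]`. -/
def lat619 (γ : Matrix (Fin 2) (Fin 2) K) : AddSubgroup (VA619 K γ) :=
  (map619 (algebraMap K (Adl K)) γ).toAddMonoidHom.range

variable {K}

lemma mem_lat619 (γ : Matrix (Fin 2) (Fin 2) K) (x : VA619 K γ) :
    x ∈ lat619 K γ ↔ ∃ a : QA619 K γ, map619 (algebraMap K (Adl K)) γ a = x := Iff.rfl

lemma algebraMap_Adl_injective619 : Function.Injective (algebraMap K (Adl K)) :=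
  NumberField.AdeleRing.algebraMap_injective (𝓞 K) K

lemma lat619_mul_mem (γ : Matrix (Fin 2) (Fin 2) K) :
    ∀ ξ ∈ lat619 K γ, ∀ η ∈ lat619 K γ, ξ * η ∈ lat619 K γ := by
  intro ξ hξ η hη
  obtain ⟨a, rfl⟩ := (mem_lat619 γ ξ).mp hξ
  obtain ⟨b, rfl⟩ := (mem_lat619 γ η).mp hη
  exact (mem_lat619 γ _).mpr ⟨a * b, map_mul _ a b⟩

lemma lat619_exists_inv (γ : Matrix (Fin 2) (Fin 2) K) (hγ : Irreducible γ.charpoly) :
    ∀ ξ ∈ lat619 K γ, ξ ≠ 0 → ∃ η ∈ lat619 K γ, ξ * η = 1 := by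
  intro ξ hξ h0
  obtain ⟨a, rfl⟩ := (mem_lat619 γ ξ).mp hξ
  have ha : a ≠ 0 := by
    rintro rfl
    exact h0 (map_zero _)
  obtain ⟨b, hb⟩ := exists_mul_eq_one619 γ hγ a ha
  refine ⟨map619 (algebraMap K (Adl K)) γ b, (mem_lat619 γ _).mpr ⟨b, rfl⟩, ?_⟩
  rw [← map_mul, hb, map_one]

/-- A compact subset of `𝔸_K` contains finitely many principal adeles. -/
lemma princ_finite_inter619 (hL : AdeleLatticeC K) (P : Set (Adl K)) (hP : IsCompact P) :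
    (P ∩ (princ K : Set (Adl K))).Finite := by
  obtain ⟨hd, hc, -⟩ := hL
  have h1 : IsCompact (P ∩ (princ K : Set (Adl K))) := hP.inter_right hc
  have h2 : IsDiscrete (princ K : Set (Adl K)) := isDiscrete_iff_discreteTopology.mpr hd
  exact h1.finite (h2.mono Set.inter_subset_right)

lemma lat619_finite_inter (γ : Matrix (Fin 2) (Fin 2) K) (hL : AdeleLatticeC K)
    (Q : Set (VA619 K γ)) (hQ : IsCompact Q) : (Q ∩ (lat619 K γ : Set (VA619 K γ))).Finite := by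
  have hfst : Continuous fun x : VA619 K γ => (x.1 : Adl K) := continuous_fst
  have hsnd : Continuous fun x : VA619 K γ => (x.2 : Adl K) := continuous_snd
  have h1 := princ_finite_inter619 hL _ (hQ.image hfst)
  have h2 := princ_finite_inter619 hL _ (hQ.image hsnd)
  have h12 : (((fun x : VA619 K γ => (x.1 : Adl K)) '' Q ∩ (princ K : Set (Adl K))) ×ˢ
      ((fun x : VA619 K γ => (x.2 : Adl K)) '' Q ∩ (princ K : Set (Adl K)))).Finite :=
    h1.prod h2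
  refine h12.subset ?_
  rintro x ⟨hxQ, hxΛ⟩
  obtain ⟨a, rfl⟩ := (mem_lat619 γ x).mp hxΛ
  exact ⟨⟨⟨_, hxQ, rfl⟩, ⟨a.1, rfl⟩⟩, ⟨⟨_, hxQ, rfl⟩, ⟨a.2, rfl⟩⟩⟩

/-- The covering set `C × C`. -/
lemma lat619_cover (γ : Matrix (Fin 2) (Fin 2) K) (hL : AdeleLatticeC K) :
    ∃ F : Set (VA619 K γ), IsCompact F ∧ ∀ x : VA619 K γ, ∃ ξ ∈ lat619 K γ, x - ξ ∈ F := by
  obtain ⟨-, -, C, hC, hcov⟩ := hL
  refine ⟨(C ×ˢ C : Set (Adl K × Adl K)), hC.prod hC, fun x => ?_⟩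
  obtain ⟨a, ha⟩ := hcov x.1
  obtain ⟨b, hb⟩ := hcov x.2
  exact ⟨map619 (algebraMap K (Adl K)) γ ((a, b) : K × K), (mem_lat619 γ _).mpr ⟨_, rfl⟩,
    ⟨ha, hb⟩⟩

end Fermat.Agent.LT.T1.H619
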