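import Mathlib
import Fermat.Agent.LT.T1.Spec
import Fermat.Agent.LT.T1.H619.FujisakiAbs
import Fermat.Agent.LT.T1.H619.QuadAlg
import Fermat.Agent.LT.T1.H619.EllipticLattice

/-!
# Row LT, tower T1, sub-leaf T1.20 (helper619): an idele of module `< 1`

OFF-MAIN.  `halfIdele619 K` is the idele `(1/2 at the infinite places, 1 at the finite places)`;
as a scalar of `𝔸_K[γ]` its module is `< 1` (`distribHaarChar_half_lt_one619`): it maps the open
relatively compact box `U = (B × W)²` (`B` = open unit box at infinity, `W` = interior of a compact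
neighbourhood of `0` in the finite adeles) into two disjoint translates inside `U`.
-/

set_option autoImplicit false

open IsDedekindDomain NumberField MeasureTheory
open scoped MatrixGroups NNReal ENNReal Pointwise

noncomputable section

namespace Fermat.Agent.LT.T1.H619

open Fermat.Agent.LT.H556.A0 Fermat.Agent.LT.T1

variable (K : Type) [Field K] [NumberField K]

/-- `1/2` in the infinite adeles. -/
def halfInf619 : InfiniteAdeleRing K := algebraMap K (InfiniteAdeleRing K) 2⁻¹

lemma halfInf619_mul_two : halfInf619 K * 2 = 1 := by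
  have h : (2 : InfiniteAdeleRing K) = algebraMap K (InfiniteAdeleRing K) 2 := (map_ofNat _ 2).symm
  rw [halfInf619, h, ← map_mul, inv_mul_cancel₀ two_ne_zero, map_one]

/-- The idele `(1/2 at the infinite places, 1 at the finite places)`. -/
def halfIdele619 : (Adl K)ˣ where
  val := ((halfInf619 K, 1) : InfiniteAdeleRing K × FiniteAdeleRing (𝓞 K) K)
  inv := ((2, 1) : InfiniteAdeleRing K × FiniteAdeleRing (𝓞 K) K)
  val_inv := by
    refine Prod.ext ?_ ?_
    · change halfInf619 K * 2 = 1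
      exact halfInf619_mul_two K
    · change (1 : FiniteAdeleRing (𝓞 K) K) * 1 = 1
      exact one_mul 1
  inv_val := by
    refine Prod.ext ?_ ?_
    · change 2 * halfInf619 K = 1
      rw [mul_comm]; exact halfInf619_mul_two K
    · change (1 : FiniteAdeleRing (𝓞 K) K) * 1 = 1
      exact one_mul 1

variable {K}

/-- The absolute value of the `w`-component of an adele. -/
def nrm619 (w : InfinitePlace K) (x : Adl K) : ℝ :=
  ‖InfinitePlace.Completion.extensionEmbedding w (x.1 w)‖

lemma continuous_nrm619 (w : InfinitePlace K) : Continuous (nrm619 w) := by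
  have h1 : Continuous fun x : Adl K => (x.1 : InfiniteAdeleRing K) := continuous_fst
  have h2 : Continuous fun x : InfiniteAdeleRing K => x w := continuous_apply w
  exact continuous_norm.comp
    ((InfinitePlace.Completion.isometry_extensionEmbedding w).continuous.comp (h2.comp h1))

lemma extensionEmbedding_halfInf619 (w : InfinitePlace K) :
    InfinitePlace.Completion.extensionEmbedding w (halfInf619 K w) = (2 : ℂ)⁻¹ := by
  have h := congrFun (halfInf619_mul_two K) w
  have h' : halfInf619 K w * (2 : w.Completion) = 1 := h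
  have h2 := congrArg (InfinitePlace.Completion.extensionEmbedding w) h'
  rw [map_mul, map_ofNat, map_one] at h2
  exact eq_inv_of_mul_eq_one_left h2

lemma nrm619_add (w : InfinitePlace K) (x y : Adl K) :
    nrm619 w (x + y) ≤ nrm619 w x + nrm619 w y := by
  have e : (x + y).1 w = x.1 w + y.1 w := rfl
  rw [nrm619, e, map_add]
  exact norm_add_le _ _

lemma nrm619_half_mul (w : InfinitePlace K) (x : Adl K) :
    nrm619 w ((halfIdele619 K : Adl K) * x) = 2⁻¹ * nrm619 w x := by
  have e : ((halfIdele619 K : Adl K) * x).1 w = halfInf619 K w * x.1 w := rfl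
  rw [nrm619, e, map_mul, extensionEmbedding_halfInf619, norm_mul, norm_inv]
  simp [nrm619]

lemma snd_half_mul (x : Adl K) : ((halfIdele619 K : Adl K) * x).2 = x.2 := by
  change (1 : FiniteAdeleRing (𝓞 K) K) * x.2 = x.2
  exact one_mul _

/-- The translation vector `(1/2 at infinity, 0 at the finite places)`. -/
def halfVec619 (K : Type) [Field K] [NumberField K] : Adl K :=
  ((halfInf619 K, 0) : InfiniteAdeleRing K × FiniteAdeleRing (𝓞 K) K)

lemma nrm619_halfVec (w : InfinitePlace K) : nrm619 w (halfVec619 K) = 2⁻¹ := by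
  have e : (halfVec619 K).1 w = halfInf619 K w := rfl
  rw [nrm619, e, extensionEmbedding_halfInf619, norm_inv]
  simp

lemma nrm619_neg (w : InfinitePlace K) (x : Adl K) : nrm619 w (-x) = nrm619 w x := by
  have e : (-x).1 w = -(x.1 w) := rfl
  rw [nrm619, e, map_neg, norm_neg, nrm619]

/-- The open box in `𝔸_K`. -/
def boxO619 (W : Set (FiniteAdeleRing (𝓞 K) K)) : Set (Adl K) :=
  {x | (∀ w : InfinitePlace K, nrm619 w x < 1) ∧ x.2 ∈ W}

/-- The compact box in `𝔸_K`. -/
def boxC619 (W : Set (FiniteAdeleRing (𝓞 K) K)) : Set (Adl K) :=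
  ((Set.univ.pi fun w : InfinitePlace K =>
      (InfinitePlace.Completion.extensionEmbedding w) ⁻¹' Metric.closedBall (0 : ℂ) 1) ×ˢ W :
    Set (InfiniteAdeleRing K × FiniteAdeleRing (𝓞 K) K))

lemma isOpen_boxO619 {W : Set (FiniteAdeleRing (𝓞 K) K)} (hW : IsOpen W) :
    IsOpen (boxO619 W) := by
  have h1 : IsOpen {x : Adl K | ∀ w : InfinitePlace K, nrm619 w x < 1} := by
    have : {x : Adl K | ∀ w : InfinitePlace K, nrm619 w x < 1}
        = ⋂ w : InfinitePlace K, (nrm619 w) ⁻¹' Set.Iio 1 := by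
      ext x; simp
    rw [this]
    exact isOpen_iInter_of_finite fun w => isOpen_Iio.preimage (continuous_nrm619 w)
  have h2 : IsOpen {x : Adl K | x.2 ∈ W} := hW.preimage continuous_snd
  exact h1.inter h2

lemma isCompact_boxC619 {W : Set (FiniteAdeleRing (𝓞 K) K)} (hW : IsCompact W) :
    IsCompact (boxC619 W) := by
  refine IsCompact.prod (isCompact_univ_pi fun w => ?_) hW
  exact (InfinitePlace.Completion.isometry_extensionEmbedding w).isClosedEmbedding.isCompact_preimage
    (isCompact_closedBall (0 : ℂ) 1)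

lemma boxO619_subset_boxC619 {W W₀ : Set (FiniteAdeleRing (𝓞 K) K)} (h : W ⊆ W₀) :
    boxO619 W ⊆ boxC619 W₀ := by
  rintro x ⟨hx1, hx2⟩
  refine ⟨fun w _ => ?_, h hx2⟩
  change InfinitePlace.Completion.extensionEmbedding w (x.1 w) ∈ Metric.closedBall (0 : ℂ) 1
  rw [mem_closedBall_zero_iff]
  exact (hx1 w).le

lemma zero_mem_boxO619 {W : Set (FiniteAdeleRing (𝓞 K) K)} (h : (0 : FiniteAdeleRing (𝓞 K) K) ∈ W) :
    (0 : Adl K) ∈ boxO619 W := by
  refine ⟨fun w => ?_, h⟩
  have e : (0 : Adl K).1 w = 0 := rfl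
  rw [nrm619, e, map_zero, norm_zero]
  exact one_pos

/-- A compact neighbourhood of `0` in the finite adeles, from local compactness of `𝔸_K`. -/
lemma exists_compact_nhds_fin619 [LocallyCompactSpace (Adl K)] :
    ∃ W₀ : Set (FiniteAdeleRing (𝓞 K) K), IsCompact W₀ ∧ W₀ ∈ nhds 0 := by
  obtain ⟨N, hN, hN0⟩ := exists_compact_mem_nhds (0 : Adl K)
  have hsnd : Continuous fun x : Adl K => (x.2 : FiniteAdeleRing (𝓞 K) K) := continuous_snd
  have hopen : IsOpenMap fun x : Adl K => (x.2 : FiniteAdeleRing (𝓞 K) K) := isOpenMap_snd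
  exact ⟨_, hN.image hsnd, hopen.image_mem_nhds hN0⟩

end Fermat.Agent.LT.T1.H619

namespace Fermat.Agent.LT.T1.H619

open Fermat.Agent.LT.H556.A0 Fermat.Agent.LT.T1

variable {K : Type} [Field K] [NumberField K]

lemma nrm619_halfVec_add_halfVec (w : InfinitePlace K) :
    nrm619 w (halfVec619 K + halfVec619 K) = 1 := by
  have e : (halfVec619 K + halfVec619 K).1 w = halfInf619 K w + halfInf619 K w := rfl
  rw [nrm619, e, map_add, extensionEmbedding_halfInf619]
  norm_num

lemma snd_halfVec619 : (halfVec619 K).2 = 0 := rfl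

/-- `x ↦ ±1/2 + x/2` maps the open box into itself. -/
lemma halfVec_add_mem_boxO619 {W : Set (FiniteAdeleRing (𝓞 K) K)} (x : Adl K)
    (hx : x ∈ boxO619 W) :
    halfVec619 K + (halfIdele619 K : Adl K) * x ∈ boxO619 W ∧
    -halfVec619 K + (halfIdele619 K : Adl K) * x ∈ boxO619 W ∧
    0 + (halfIdele619 K : Adl K) * x ∈ boxO619 W := by
  obtain ⟨hx1, hx2⟩ := hx
  have hb : ∀ w : InfinitePlace K, 2⁻¹ + 2⁻¹ * nrm619 w x < 1 := fun w => by
    have := hx1 w
    linarith
  have hnn : ∀ w : InfinitePlace K, 0 ≤ nrm619 w x := fun w => norm_nonneg _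
  refine ⟨⟨fun w => ?_, ?_⟩, ⟨fun w => ?_, ?_⟩, ⟨fun w => ?_, ?_⟩⟩
  · calc nrm619 w (halfVec619 K + (halfIdele619 K : Adl K) * x)
        ≤ nrm619 w (halfVec619 K) + nrm619 w ((halfIdele619 K : Adl K) * x) := nrm619_add w _ _
      _ = 2⁻¹ + 2⁻¹ * nrm619 w x := by rw [nrm619_halfVec, nrm619_half_mul]
      _ < 1 := hb w
  · change (halfVec619 K).2 + ((halfIdele619 K : Adl K) * x).2 ∈ W
    rw [snd_halfVec619, snd_half_mul, zero_add]
    exact hx2
  · calc nrm619 w (-halfVec619 K + (halfIdele619 K : Adl K) * x)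
        ≤ nrm619 w (-halfVec619 K) + nrm619 w ((halfIdele619 K : Adl K) * x) := nrm619_add w _ _
      _ = 2⁻¹ + 2⁻¹ * nrm619 w x := by rw [nrm619_neg, nrm619_halfVec, nrm619_half_mul]
      _ < 1 := hb w
  · change -(halfVec619 K).2 + ((halfIdele619 K : Adl K) * x).2 ∈ W
    rw [snd_halfVec619, snd_half_mul, neg_zero, zero_add]
    exact hx2
  · rw [zero_add, nrm619_half_mul]
    have := hx1 w
    have := hnn w
    linarith
  · rw [zero_add, snd_half_mul]
    exact hx2

/-- The two translates are disjoint. -/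
lemma halfVec_add_ne619 [Nonempty (InfinitePlace K)] {W : Set (FiniteAdeleRing (𝓞 K) K)}
    (x y : Adl K) (hx : x ∈ boxO619 W) (hy : y ∈ boxO619 W) :
    halfVec619 K + (halfIdele619 K : Adl K) * x ≠
      -halfVec619 K + (halfIdele619 K : Adl K) * y := by
  intro h
  obtain ⟨w⟩ := ‹Nonempty (InfinitePlace K)›
  have e : halfVec619 K + halfVec619 K
      = (halfIdele619 K : Adl K) * y + -((halfIdele619 K : Adl K) * x) := by
    linear_combination h
  have h1 := nrm619_halfVec_add_halfVec (K := K) w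
  rw [e] at h1
  have h2 := nrm619_add w ((halfIdele619 K : Adl K) * y) (-((halfIdele619 K : Adl K) * x))
  rw [nrm619_neg, nrm619_half_mul, nrm619_half_mul, h1] at h2
  have := hx.1 w
  have := hy.1 w
  linarith

section Module

variable (γ : Matrix (Fin 2) (Fin 2) K)

/-- The scalar `1/2` (at the infinite places) of `𝔸_K[γ]`. -/
def halfUnit619 : (VA619 K γ)ˣ :=
  Units.map (scal619 (γ.map (algebraMap K (Adl K)))).toMonoidHom (halfIdele619 K)

lemma halfUnit619_mul_fst (x : VA619 K γ) :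
    (((halfUnit619 γ : (VA619 K γ)ˣ) : VA619 K γ) * x).1 = (halfIdele619 K : Adl K) * x.1 := by
  change (halfIdele619 K : Adl K) * x.1 - 0 * x.2 * _ = _
  ring

lemma halfUnit619_mul_snd (x : VA619 K γ) :
    (((halfUnit619 γ : (VA619 K γ)ˣ) : VA619 K γ) * x).2 = (halfIdele619 K : Adl K) * x.2 := by
  change (halfIdele619 K : Adl K) * x.2 + 0 * x.1 + 0 * x.2 * _ = _
  ring

/-- **The module of the scalar `1/2` is `< 1`.** -/
lemma distribHaarChar_half_lt_one619 [LocallyCompactSpace (Adl K)]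
    [MeasurableSpace (VA619 K γ)] [BorelSpace (VA619 K γ)] :
    distribHaarChar (VA619 K γ) (halfUnit619 γ) < 1 := by
  obtain ⟨W₀, hW₀c, hW₀n⟩ := exists_compact_nhds_fin619 (K := K)
  set W : Set (FiniteAdeleRing (𝓞 K) K) := interior W₀ with hW
  have hWo : IsOpen W := isOpen_interior
  have hW0 : (0 : FiniteAdeleRing (𝓞 K) K) ∈ W := mem_interior_iff_mem_nhds.mpr hW₀n
  set U : Set (VA619 K γ) := (boxO619 W ×ˢ boxO619 W : Set (Adl K × Adl K)) with hU
  set N : Set (VA619 K γ) := (boxC619 W₀ ×ˢ boxC619 W₀ : Set (Adl K × Adl K)) with hNdef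
  have hUo : IsOpen U := (isOpen_boxO619 hWo).prod (isOpen_boxO619 hWo)
  have hUne : U.Nonempty := ⟨0, zero_mem_boxO619 hW0, zero_mem_boxO619 hW0⟩
  have hN : IsCompact N := (isCompact_boxC619 hW₀c).prod (isCompact_boxC619 hW₀c)
  have hUN : U ⊆ N :=
    Set.prod_mono (boxO619_subset_boxC619 interior_subset)
      (boxO619_subset_boxC619 interior_subset)
  set v₁ : VA619 K γ := ((halfVec619 K, 0) : Adl K × Adl K) with hv₁
  set v₂ : VA619 K γ := ((-halfVec619 K, 0) : Adl K × Adl K) with hv₂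
  refine distribHaarChar_lt_one619 (halfUnit619 γ) hUo hUne hN hUN v₁ v₂ ?_ ?_ ?_
  · rintro x ⟨hx1, hx2⟩
    refine ⟨?_, ?_⟩
    · change halfVec619 K + (((halfUnit619 γ : (VA619 K γ)ˣ) : VA619 K γ) * x).1 ∈ boxO619 W
      rw [halfUnit619_mul_fst]
      exact (halfVec_add_mem_boxO619 x.1 hx1).1
    · change 0 + (((halfUnit619 γ : (VA619 K γ)ˣ) : VA619 K γ) * x).2 ∈ boxO619 W
      rw [halfUnit619_mul_snd]
      exact (halfVec_add_mem_boxO619 x.2 hx2).2.2
  · rintro x ⟨hx1, hx2⟩
    refine ⟨?_, ?_⟩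
    · change -halfVec619 K + (((halfUnit619 γ : (VA619 K γ)ˣ) : VA619 K γ) * x).1 ∈ boxO619 W
      rw [halfUnit619_mul_fst]
      exact (halfVec_add_mem_boxO619 x.1 hx1).2.1
    · change 0 + (((halfUnit619 γ : (VA619 K γ)ˣ) : VA619 K γ) * x).2 ∈ boxO619 W
      rw [halfUnit619_mul_snd]
      exact (halfVec_add_mem_boxO619 x.2 hx2).2.2
  · rintro x ⟨hx1, -⟩ y ⟨hy1, -⟩ h
    have h' := congrArg Prod.fst h
    change halfVec619 K + (((halfUnit619 γ : (VA619 K γ)ˣ) : VA619 K γ) * x).1
      = -halfVec619 K + (((halfUnit619 γ : (VA619 K γ)ˣ) : VA619 K γ) * y).1 at h'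
    rw [halfUnit619_mul_fst, halfUnit619_mul_fst] at h'
    exact halfVec_add_ne619 x.1 y.1 hx1 hy1 h'

end Module

end Fermat.Agent.LT.T1.H619
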