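import Mathlib
import Fermat.Agent.LT.T1.Spec
import Fermat.Agent.LT.T1.H619.FujisakiAbs
import Fermat.Agent.LT.T1.H619.QuadAlg
import Fermat.Agent.LT.T1.H619.EllipticLattice
import Fermat.Agent.LT.T1.H619.EllipticModule

/-!
# Row LT, tower T1, sub-leaf T1.20 (helper619): `LeafEllipticCompact`

OFF-MAIN.  `leafEllipticCompact619 : T1.LeafEllipticCompact K` — the centraliser of an elliptic
`γ ∈ GL₂(K)` in `GL₂(𝔸_K)` is `Z(𝔸_K) · G_γ(K) · (compact)`.

Proof.  The centraliser of `γ` in `M₂(𝔸_K)` is `𝔸_K[γ] = 𝔸_K ⊕ 𝔸_K γ` (`QuadAlg.lean`, the lower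
left entry of `γ` is a unit), so the centraliser in `GL₂` is the image of `𝔸_K[γ]ˣ`.  The abstract
Fujisaki lemma (`FujisakiAbs.lean`) for the lattice `K[γ] ⊂ 𝔸_K[γ]` (`EllipticLattice.lean`) and
the central ray generated by the idele `1/2` (`EllipticModule.lean`) gives
`𝔸_K[γ]ˣ = (1/2)^ℤ · K[γ]ˣ · (compact)`.

Only `LocCompC` and `AdeleLatticeC` are used.
-/

set_option autoImplicit false

open IsDedekindDomain NumberField MeasureTheory
open scoped MatrixGroups NNReal ENNReal Pointwise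

noncomputable section

namespace Fermat.Agent.LT.T1.H619

open Fermat.Agent.LT.H556.A0 Fermat.Agent.LT.T1

variable (K : Type) [Field K] [NumberField K]

/-- **T1.20.** -/
theorem leafEllipticCompact619 : LeafEllipticCompact K := by
  intro hLC hL _ _ γ hγ
  obtain ⟨⟨h1, h2, h3⟩, -⟩ := hLC
  have := h1
  have := h2
  have := h3
  set γ₀ : Matrix (Fin 2) (Fin 2) K := (γ : Matrix (Fin 2) (Fin 2) K) with hγ₀
  set γA : Matrix (Fin 2) (Fin 2) (Adl K) := γ₀.map (algebraMap K (Adl K)) with hγA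
  let _ : MeasurableSpace (VA619 K γ₀) := borel _
  have : BorelSpace (VA619 K γ₀) := ⟨rfl⟩
  obtain ⟨F, hF, hcov⟩ := lat619_cover γ₀ hL
  obtain ⟨Cabs, hCc, hCabs⟩ := fujisaki_ray619 (lat619 K γ₀) (lat619_finite_inter γ₀ hL)
    (lat619_mul_mem γ₀) (lat619_exists_inv γ₀ hγ) hF hcov (halfUnit619 γ₀)
    (distribHaarChar_half_lt_one619 γ₀)
  -- the group homomorphism `𝔸_K[γ]ˣ → GL₂(𝔸_K)`
  set Φ : (VA619 K γ₀)ˣ →* G K := Units.map (emb619 γA).toMonoidHom with hΦ
  have hΦc : Continuous Φ := Continuous.units_map _ (continuous_emb619 γA)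
  refine ⟨Φ '' Cabs, hCc.image hΦc, fun g hg => ?_⟩
  -- the lower left entry of `γ` is a unit
  have hc0 : γ₀ 1 0 ≠ 0 := apply_one_zero_ne_zero619 γ₀ hγ
  have hcA : γA 1 0 * algebraMap K (Adl K) (γ₀ 1 0)⁻¹ = 1 := by
    change algebraMap K (Adl K) (γ₀ 1 0) * _ = 1
    rw [← map_mul, mul_inv_cancel₀ hc0, map_one]
  -- `g` and `g⁻¹` commute with `γ`
  have hratG : ((ratG K γ : G K) : Matrix (Fin 2) (Fin 2) (Adl K)) = γA := by
    ext i j
    exact Matrix.GeneralLinearGroup.map_apply _ _ _ _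
  have hg1 : (g : Matrix (Fin 2) (Fin 2) (Adl K)) * γA = γA * g := by
    rw [← hratG]
    exact congrArg Units.val hg
  have hg' : g⁻¹ * ratG K γ = ratG K γ * g⁻¹ := by
    have := congrArg (fun t => g⁻¹ * t * g⁻¹) hg
    simp only [mul_assoc, mul_inv_cancel, mul_one, inv_mul_cancel_left] at this
    exact this.symm
  have hg2 : ((g⁻¹ : G K) : Matrix (Fin 2) (Fin 2) (Adl K)) * γA = γA * (g⁻¹ : G K) := by
    rw [← hratG]
    exact congrArg Units.val hg'
  obtain ⟨x, hx⟩ := exists_emb619_eq_of_commute γA hcA _ hg1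
  obtain ⟨x', hx'⟩ := exists_emb619_eq_of_commute γA hcA _ hg2
  have hinj := emb619_injective γA hcA
  have hxx' : x * x' = 1 := hinj (by
    rw [map_mul, hx, hx', map_one]
    exact congrArg Units.val (mul_inv_cancel g))
  let u : (VA619 K γ₀)ˣ := ⟨x, x', hxx', by rw [mul_comm]; exact hxx'⟩
  have hu : Φ u = g := Units.ext hx
  obtain ⟨k, ξ, hξ, hξi, hmem⟩ := hCabs u
  obtain ⟨a, ha⟩ := (mem_lat619 γ₀ _).mp hξ
  obtain ⟨b, hb⟩ := (mem_lat619 γ₀ _).mp hξi
  have hab : a * b = 1 := map619_injective _ _ algebraMap_Adl_injective619 (by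
    rw [map_mul, ha, hb, map_one]
    exact congrArg Units.val (mul_inv_cancel ξ))
  let δ : GL (Fin 2) K :=
    Units.map (emb619 γ₀).toMonoidHom ⟨a, b, hab, by rw [mul_comm]; exact hab⟩
  refine ⟨Φ (halfUnit619 γ₀ ^ k), δ, Φ ((halfUnit619 γ₀ ^ k * ξ)⁻¹ * u), ?_, ?_,
    ⟨_, hmem, rfl⟩, ?_⟩
  · -- central
    refine ⟨((halfIdele619 K ^ k : (Adl K)ˣ) : Adl K), ?_⟩
    have e : halfUnit619 γ₀ ^ k = Units.map (scal619 γA).toMonoidHom (halfIdele619 K ^ k) := by
      rw [map_zpow]; rfl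
    rw [e]
    exact emb619_scal γA _
  · -- `δ` commutes with `γ`
    apply Units.ext
    exact emb619_mul_comm γ₀ a
  · -- the decomposition
    have hδ : ratG K δ = Φ ξ := by
      apply Units.ext
      ext i j
      have h1 : ((ratG K δ : G K) : Matrix (Fin 2) (Fin 2) (Adl K)) i j
          = algebraMap K (Adl K) ((emb619 γ₀ a) i j) :=
        Matrix.GeneralLinearGroup.map_apply _ _ _ _
      have h2 : ((Φ ξ : G K) : Matrix (Fin 2) (Fin 2) (Adl K)) = emb619 γA (ξ : VA619 K γ₀) := rfl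
      rw [h1, h2, ← ha, emb619_map619]
      rfl
    rw [hδ, ← map_mul, ← map_mul, ← hu]
    congr 1
    group

end Fermat.Agent.LT.T1.H619
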